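import Mathlib

/-!
# Abstract counting lemma behind Kummer's lemma

If a commutative group `G` is generated by a family `s : ι → G`, and
`L : G →* Multiplicative (κ → ZMod p)` is a homomorphism such that the images of some
family `g : κ → G` form an invertible matrix, with `ι ≃ κ`, then every element of the kernel
of `L` is a `p`-th power.
-/

set_option autoImplicit false

namespace Fermat.Agent.S11.KD

open Matrix

/-- The matrix of values of `L` on a family. -/
def valMatrix {G : Type*} [CommGroup G] {p : ℕ} {κ : Type*} {α : Type*}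
    (L : G →* Multiplicative (κ → ZMod p)) (s : α → G) :
    Matrix α κ (ZMod p) :=
  Matrix.of fun i j => Multiplicative.toAdd (L (s i)) j

lemma L_prod_zpow {G : Type*} [CommGroup G] {p : ℕ} {ι κ : Type*} [Fintype ι]
    (L : G →* Multiplicative (κ → ZMod p)) (s : ι → G) (a : ι → ℤ) :
    Multiplicative.toAdd (L (∏ i, s i ^ a i)) =
      Matrix.vecMul (fun i => ((a i : ℤ) : ZMod p)) (valMatrix L s) := by
  rw [map_prod]
  funext j
  simp only [map_zpow, Matrix.vecMul, dotProduct, valMatrix, Matrix.of_apply]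
  rw [toAdd_prod, Finset.sum_apply]
  refine Finset.sum_congr rfl fun i _ => ?_
  rw [toAdd_zpow, Pi.smul_apply, zsmul_eq_mul]

theorem exists_pow_eq_of_L_eq_one {G : Type*} [CommGroup G] {p : ℕ}
    {ι κ : Type*} [Fintype ι] [Fintype κ] [DecidableEq κ] (e : ι ≃ κ)
    (s : ι → G) (hs : ∀ x : G, ∃ a : ι → ℤ, x = ∏ i, s i ^ a i)
    (L : G →* Multiplicative (κ → ZMod p))
    (g : κ → G) (N : Matrix κ κ (ZMod p)) (hN : valMatrix L g * N = 1)
    (x : G) (hx : L x = 1) : ∃ y : G, x = y ^ p := by
  classical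
  -- express the `g k` in terms of the generators
  choose m hm using fun k => hs (g k)
  let Mbar : Matrix κ ι (ZMod p) := Matrix.of fun k i => ((m k i : ℤ) : ZMod p)
  let S : Matrix ι κ (ZMod p) := valMatrix L s
  have hT : valMatrix L g = Mbar * S := by
    ext k j
    have := congrFun (L_prod_zpow L s (m k)) j
    rw [← hm k] at this
    simpa [valMatrix, Matrix.mul_apply, Matrix.vecMul, dotProduct, Mbar, S] using this
  have h1 : Mbar * (S * N) = 1 := by rw [← Matrix.mul_assoc, ← hT, hN]
  have h2 : (S * N) * Mbar = 1 := (Matrix.mul_eq_one_comm_of_equiv e.symm).1 h1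
  obtain ⟨a, ha⟩ := hs x
  have h3 : Matrix.vecMul (fun i => ((a i : ℤ) : ZMod p)) S = 0 := by
    rw [← L_prod_zpow, ← ha, hx]; rfl
  have h4 : (fun i => ((a i : ℤ) : ZMod p)) = 0 := by
    have := congrArg (fun v => Matrix.vecMul v (N * Mbar)) h3
    simp only [Matrix.vecMul_vecMul, Matrix.zero_vecMul] at this
    rwa [← Matrix.mul_assoc, h2, Matrix.vecMul_one] at this
  have h5 : ∀ i, (p : ℤ) ∣ a i := fun i =>
    (ZMod.intCast_zmod_eq_zero_iff_dvd (a i) p).1 (congrFun h4 i)
  choose b hb using h5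
  refine ⟨∏ i, s i ^ b i, ?_⟩
  rw [ha, ← Finset.prod_pow]
  refine Finset.prod_congr rfl fun i _ => ?_
  rw [hb i, mul_comm, _root_.zpow_mul, zpow_natCast]

end Fermat.Agent.S11.KD
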