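import Fermat.Agent.S11.KD.Main

/-!
# Five independent units modulo units congruent to integers mod `11`
-/

set_option autoImplicit false

namespace Fermat.Agent.S11.KD

open NumberField

theorem exists_independent_units_eleven_dlog (K : Type*) [Field K] [NumberField K]
    [IsCyclotomicExtension {11} ℚ K] :
    ∃ c : Fin 5 → (𝓞 K)ˣ, ∀ n : Fin 5 → ℤ,
      (∃ m : ℤ, (11 : 𝓞 K) ∣ ((∏ i, c i ^ n i : (𝓞 K)ˣ) : 𝓞 K) - (m : 𝓞 K)) →
        ∀ i, (11 : ℤ) ∣ n i := by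
  have hζ := IsCyclotomicExtension.zeta_spec 11 ℚ K
  refine ⟨gUnits hζ, fun n ⟨m, hm⟩ i => ?_⟩
  have h1 : Lhom hζ (∏ i, gUnits hζ i ^ n i) = 1 := Lhom_eq_one_of_congr hζ m hm
  have h2 : Matrix.vecMul (fun i => ((n i : ℤ) : ZMod 11)) Tmat = 0 := by
    rw [← valMatrix_gUnits hζ, ← L_prod_zpow, h1]; rfl
  have h3 : (fun i => ((n i : ℤ) : ZMod 11)) = 0 := by
    have := congrArg (fun v => Matrix.vecMul v Nmat) h2
    simp only [Matrix.vecMul_vecMul, Matrix.zero_vecMul] at this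
    rwa [Tmat_mul_Nmat, Matrix.vecMul_one] at this
  exact (ZMod.intCast_zmod_eq_zero_iff_dvd (n i) 11).1 (congrFun h3 i)

end Fermat.Agent.S11.KD
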