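import Fermat.Agent.S11.KD.Ring
import Fermat.Agent.S11.KD.Abstract

/-!
# Kummer's lemma for `p = 13` (machine-generated certificates, dlog method)

Every unit of `ℤ[ζ_13]` congruent to a rational integer modulo `13` is a `13`-th power.
-/

set_option autoImplicit false

namespace Fermat.Agent.S11.KD.P13

open Polynomial NumberField Fermat.Agent.S11.KD

noncomputable section

/-- Primality of `13` as a local fact. -/
lemma prime_p : Nat.Prime 13 := by norm_num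

/-- The ring `F_p[t]/(t^10)`. -/
abbrev A : Type := AdjoinRoot ((X : (ZMod 13)[X]) ^ 10)

/-- The class of `t`. -/
def t : A := AdjoinRoot.root _

lemma t_pow : t ^ 10 = 0 := by
  have := AdjoinRoot.eval₂_root ((X : (ZMod 13)[X]) ^ 10)
  simpa [t] using this

lemma p_A : (13 : A) = 0 := by
  have h : algebraMap (ZMod 13) A (13 : ZMod 13) = 0 := by
    have : (13 : ZMod 13) = 0 := by decide
    rw [this, map_zero]
  rwa [map_ofNat] at h

/-- The `j`-th coefficient functional. -/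
def coeffA (j : ℕ) : A →ₗ[ZMod 13] ZMod 13 :=
  (Polynomial.lcoeff (ZMod 13) j).comp (AdjoinRoot.modByMonicHom (monic_X_pow 10))

lemma coeffA_t_pow (j i : ℕ) (hi : i < 10) :
    coeffA j (t ^ i) = if j = i then 1 else 0 := by
  haveI : Fact (Nat.Prime 13) := ⟨prime_p⟩
  have h1 : t ^ i = AdjoinRoot.mk ((X : (ZMod 13)[X]) ^ 10) (X ^ i) := by
    simp [t]
  rw [h1, coeffA, LinearMap.comp_apply, AdjoinRoot.modByMonicHom_mk]
  have h2 : ((X : (ZMod 13)[X]) ^ i) %ₘ (X ^ 10) = X ^ i := by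
    rw [modByMonic_eq_self_iff (monic_X_pow 10)]
    rw [degree_X_pow, degree_X_pow]
    exact_mod_cast hi
  rw [h2, lcoeff_apply, coeff_X_pow]

/-- The dual numbers over `A`. -/
abbrev B : Type := DualNumber A

/-- The element `t + ε` of the dual numbers. -/
def sB : B := TrivSqZeroExt.inl t + DualNumber.eps

lemma fst_sB : TrivSqZeroExt.fst sB = t := by simp [sB]

lemma snd_sB : TrivSqZeroExt.snd sB = 1 := by simp [sB]

lemma fst_one_add_sB_pow (i : ℕ) : TrivSqZeroExt.fst ((1 + sB) ^ i) = (1 + t) ^ i := by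
  simp [TrivSqZeroExt.fst_pow, fst_sB]

lemma snd_one_add_sB_pow (i : ℕ) :
    TrivSqZeroExt.snd ((1 + sB) ^ i) = (i : A) * (1 + t) ^ (i - 1) := by
  rw [TrivSqZeroExt.snd_pow]
  simp [fst_sB, snd_sB, Nat.pred_eq_sub_one]

lemma p_B : (13 : B) = 0 := by
  have h : (13 : B) = algebraMap A B 13 := (map_ofNat _ 13).symm
  rw [h, p_A, map_zero]

lemma sB_pow : sB ^ 12 = 0 := by
  ext
  · rw [TrivSqZeroExt.fst_pow, fst_sB]
    have : t ^ 12 = t ^ 10 * t ^ 2 := by ring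
    rw [this, t_pow, zero_mul]; rfl
  · rw [TrivSqZeroExt.snd_pow, fst_sB, snd_sB]
    have : t ^ (Nat.pred 12) = t ^ 10 * t := by
      show t ^ 11 = _
      ring
    rw [this, t_pow]
    simp

lemma geom_sum_one_add_sB : ∑ i ∈ Finset.range 13, (1 + sB) ^ i = 0 := by
  simp only [Finset.sum_range_succ, Finset.sum_range_zero]
  linear_combination ((1) + (6) * sB + (22) * sB ^ 2 + (55) * sB ^ 3 + (99) * sB ^ 4 + (132) * sB ^ 5 + (132) * sB ^ 6 + (99) * sB ^ 7 + (55) * sB ^ 8 + (22) * sB ^ 9 + (6) * sB ^ 10 + (1) * sB ^ 11) * p_B + sB_pow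

variable {K : Type*} [Field K] [NumberField K] [IsCyclotomicExtension {13} ℚ K]
  {ζ : K} (hζ : IsPrimitiveRoot ζ 13)

omit [IsCyclotomicExtension {13} ℚ K] in
lemma minpoly_toInteger : minpoly ℤ hζ.toInteger = ∑ i ∈ Finset.range 13, X ^ i := by
  haveI : Fact (Nat.Prime 13) := ⟨prime_p⟩
  have h : ((hζ.toInteger : 𝓞 K) : K) = ζ := hζ.coe_toInteger
  rw [← RingOfIntegers.minpoly_coe, h, ← cyclotomic_eq_minpoly hζ (by norm_num),
    cyclotomic_prime ℤ 13]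

lemma aeval_minpoly_gen :
    aeval (1 + sB) (minpoly ℤ hζ.integralPowerBasis.gen) = 0 := by
  rw [hζ.integralPowerBasis_gen, minpoly_toInteger hζ]
  simp only [map_sum, map_pow, aeval_X]
  exact geom_sum_one_add_sB

/-- The ring homomorphism `𝓞 K → DualNumber (F_p[t]/(t^10))`, `ζ ↦ 1 + t + ε`. -/
def phi : 𝓞 K →ₐ[ℤ] B :=
  hζ.integralPowerBasis.lift (1 + sB) (aeval_minpoly_gen hζ)

lemma phi_zeta : phi hζ hζ.toInteger = 1 + sB := by
  have h := hζ.integralPowerBasis.lift_gen (1 + sB) (aeval_minpoly_gen hζ)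
  have h2 : hζ.integralPowerBasis.gen = hζ.toInteger := hζ.integralPowerBasis_gen
  unfold phi
  rw [← h2]
  exact h

/-- The logarithmic derivative homomorphism on the units of `𝓞 K`. -/
def Dlog : (𝓞 K)ˣ →* Multiplicative A :=
  (dlog A).comp (Units.map ((phi hζ : 𝓞 K →+* B) : 𝓞 K →* B))

lemma Dlog_eq_of {u : (𝓞 K)ˣ} (d : A)
    (h : TrivSqZeroExt.snd (phi hζ (u : 𝓞 K)) = d * TrivSqZeroExt.fst (phi hζ (u : 𝓞 K))) :
    Multiplicative.toAdd (Dlog hζ u) = d :=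
  dlog_eq_of_snd_eq _ d h

/-- `Dlog` kills units congruent to a rational integer modulo `13`. -/
lemma Dlog_eq_one_of_congr {u : (𝓞 K)ˣ} (n : ℤ) (h : (13 : 𝓞 K) ∣ (u : 𝓞 K) - n) :
    Dlog hζ u = 1 := by
  obtain ⟨β, hβ⟩ := h
  have hu : (u : 𝓞 K) = n + 13 * β := by rw [← hβ]; ring
  apply dlog_eq_one_of_snd_eq_zero
  show TrivSqZeroExt.snd (phi hζ (u : 𝓞 K)) = 0
  rw [hu, map_add, map_mul, map_intCast, map_ofNat, p_B, zero_mul, add_zero,
    TrivSqZeroExt.snd_intCast]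

/-- An element of `A` given by its list of coefficients. -/
def ofCoeffs (c : Fin 10 → ZMod 13) : A := ∑ i : Fin 10, c i • t ^ (i : ℕ)

lemma coeffA_ofCoeffs (c : Fin 10 → ZMod 13) (j : Fin 10) : coeffA j (ofCoeffs c) = c j := by
  unfold ofCoeffs
  rw [map_sum]
  simp only [map_smul, smul_eq_mul]
  rw [Finset.sum_eq_single j]
  · rw [coeffA_t_pow _ _ j.isLt, if_pos rfl, mul_one]
  · intro i _ hi
    rw [coeffA_t_pow _ _ i.isLt, if_neg, mul_zero]
    exact fun h => hi (Fin.ext h.symm)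
  · intro h; exact absurd (Finset.mem_univ j) h

lemma ofCoeffs_eq (c : Fin 10 → ZMod 13) :
    ofCoeffs c = algebraMap (ZMod 13) A (c 0) +
      algebraMap (ZMod 13) A (c 1) * t +
      algebraMap (ZMod 13) A (c 2) * t ^ 2 +
      algebraMap (ZMod 13) A (c 3) * t ^ 3 +
      algebraMap (ZMod 13) A (c 4) * t ^ 4 +
      algebraMap (ZMod 13) A (c 5) * t ^ 5 +
      algebraMap (ZMod 13) A (c 6) * t ^ 6 +
      algebraMap (ZMod 13) A (c 7) * t ^ 7 +
      algebraMap (ZMod 13) A (c 8) * t ^ 8 +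
      algebraMap (ZMod 13) A (c 9) * t ^ 9 := by
  unfold ofCoeffs
  simp [Fin.sum_univ_succ, Algebra.smul_def]
  try ring

/-- `ζ` as a unit. -/
def zetaUnit : (𝓞 K)ˣ := (hζ.toInteger_isPrimitiveRoot.isUnit (by norm_num)).unit

omit [NumberField K] [IsCyclotomicExtension {13} ℚ K] in
lemma coe_zetaUnit : ((zetaUnit hζ : (𝓞 K)ˣ) : 𝓞 K) = hζ.toInteger := rfl

/-- The cyclotomic unit `1 + ζ + ⋯ + ζ^(k-1)`. -/
def cycUnit (k : ℕ) (hk : k.Coprime 13) : (𝓞 K)ˣ :=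
  (hζ.toInteger_isPrimitiveRoot.geom_sum_isUnit (by norm_num) hk).unit

omit [NumberField K] [IsCyclotomicExtension {13} ℚ K] in
lemma coe_cycUnit (k : ℕ) (hk : k.Coprime 13) :
    ((cycUnit hζ k hk : (𝓞 K)ˣ) : 𝓞 K) = ∑ i ∈ Finset.range k, hζ.toInteger ^ i := rfl

lemma phi_cycUnit (k : ℕ) (hk : k.Coprime 13) :
    phi hζ ((cycUnit hζ k hk : (𝓞 K)ˣ) : 𝓞 K) = ∑ i ∈ Finset.range k, (1 + sB) ^ i := by
  rw [coe_cycUnit, map_sum]
  simp only [map_pow, phi_zeta]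

lemma fst_phi_cycUnit (k : ℕ) (hk : k.Coprime 13) :
    TrivSqZeroExt.fst (phi hζ ((cycUnit hζ k hk : (𝓞 K)ˣ) : 𝓞 K)) =
      ∑ i ∈ Finset.range k, (1 + t) ^ i := by
  rw [phi_cycUnit, TrivSqZeroExt.fst_sum]
  simp only [fst_one_add_sB_pow]

lemma snd_phi_cycUnit (k : ℕ) (hk : k.Coprime 13) :
    TrivSqZeroExt.snd (phi hζ ((cycUnit hζ k hk : (𝓞 K)ˣ) : 𝓞 K)) =
      ∑ i ∈ Finset.range k, (i : A) * (1 + t) ^ (i - 1) := by
  rw [phi_cycUnit, TrivSqZeroExt.snd_sum]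
  simp only [snd_one_add_sB_pow]

/-- Coefficients of the logarithmic derivative of the `1`-th unit. -/
def dcoef1 : Fin 10 → ZMod 13 := ![1, 12, 1, 12, 1, 12, 1, 12, 1, 12]

/-- Coefficients of the logarithmic derivative of the `2`-th unit. -/
def dcoef2 : Fin 10 → ZMod 13 := ![7, 3, 5, 4, 11, 1, 6, 10, 8, 9]

/-- Coefficients of the logarithmic derivative of the `3`-th unit. -/
def dcoef3 : Fin 10 → ZMod 13 := ![1, 4, 0, 3, 10, 2, 12, 9, 0, 10]

/-- Coefficients of the logarithmic derivative of the `4`-th unit. -/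
def dcoef4 : Fin 10 → ZMod 13 := ![8, 3, 11, 11, 1, 1, 11, 5, 4, 9]

/-- Coefficients of the logarithmic derivative of the `5`-th unit. -/
def dcoef5 : Fin 10 → ZMod 13 := ![2, 0, 12, 6, 0, 2, 11, 4, 7, 3]

/-- Coefficients of the logarithmic derivative of the `6`-th unit. -/
def dcoef6 : Fin 10 → ZMod 13 := ![9, 8, 3, 8, 9, 1, 6, 7, 6, 7]

lemma Dlog_unit1 : Multiplicative.toAdd (Dlog hζ (zetaUnit hζ)) = ofCoeffs dcoef1 := by
  apply Dlog_eq_of
  rw [coe_zetaUnit, phi_zeta]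
  have h1 : TrivSqZeroExt.fst (1 + sB) = 1 + t := by simp [fst_sB]
  have h2 : TrivSqZeroExt.snd (1 + sB) = 1 := by simp [snd_sB]
  rw [h1, h2, ofCoeffs_eq]
  simp only [dcoef1, Matrix.cons_val, map_ofNat, map_one, map_zero]
  linear_combination ((-1) * t + (-1) * t ^ 2 + (-1) * t ^ 3 + (-1) * t ^ 4 + (-1) * t ^ 5 + (-1) * t ^ 6 + (-1) * t ^ 7 + (-1) * t ^ 8 + (-1) * t ^ 9) * p_A + ((-12)) * t_pow

lemma Dlog_unit2 : Multiplicative.toAdd (Dlog hζ (cycUnit hζ 2 (by norm_num))) =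
    ofCoeffs dcoef2 := by
  apply Dlog_eq_of
  rw [fst_phi_cycUnit, snd_phi_cycUnit, ofCoeffs_eq]
  simp only [dcoef2, Matrix.cons_val, map_ofNat, map_one, map_zero, Finset.sum_range_succ,
    Finset.sum_range_zero, Nat.cast_ofNat, Nat.cast_one, Nat.cast_zero]
  linear_combination ((-1) + (-1) * t + (-1) * t ^ 2 + (-1) * t ^ 3 + (-2) * t ^ 4 + (-1) * t ^ 5 + (-1) * t ^ 6 + (-2) * t ^ 7 + (-2) * t ^ 8 + (-2) * t ^ 9) * p_A + ((-9)) * t_pow

lemma Dlog_unit3 : Multiplicative.toAdd (Dlog hζ (cycUnit hζ 3 (by norm_num))) =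
    ofCoeffs dcoef3 := by
  apply Dlog_eq_of
  rw [fst_phi_cycUnit, snd_phi_cycUnit, ofCoeffs_eq]
  simp only [dcoef3, Matrix.cons_val, map_ofNat, map_one, map_zero, Finset.sum_range_succ,
    Finset.sum_range_zero, Nat.cast_ofNat, Nat.cast_one, Nat.cast_zero]
  linear_combination ((-1) * t + (-1) * t ^ 2 + (-1) * t ^ 3 + (-3) * t ^ 4 + (-3) * t ^ 5 + (-4) * t ^ 6 + (-5) * t ^ 7 + (-3) * t ^ 8 + (-3) * t ^ 9) * p_A + ((-30) + (-10) * t) * t_pow

lemma Dlog_unit4 : Multiplicative.toAdd (Dlog hζ (cycUnit hζ 4 (by norm_num))) =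
    ofCoeffs dcoef4 := by
  apply Dlog_eq_of
  rw [fst_phi_cycUnit, snd_phi_cycUnit, ofCoeffs_eq]
  simp only [dcoef4, Matrix.cons_val, map_ofNat, map_one, map_zero, Finset.sum_range_succ,
    Finset.sum_range_zero, Nat.cast_ofNat, Nat.cast_one, Nat.cast_zero]
  linear_combination ((-2) + (-4) * t + (-7) * t ^ 2 + (-10) * t ^ 3 + (-9) * t ^ 4 + (-5) * t ^ 5 + (-5) * t ^ 6 + (-7) * t ^ 7 + (-7) * t ^ 8 + (-7) * t ^ 9) * p_A + ((-75) + (-40) * t + (-9) * t ^ 2) * t_pow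

lemma Dlog_unit5 : Multiplicative.toAdd (Dlog hζ (cycUnit hζ 5 (by norm_num))) =
    ofCoeffs dcoef5 := by
  apply Dlog_eq_of
  rw [fst_phi_cycUnit, snd_phi_cycUnit, ofCoeffs_eq]
  simp only [dcoef5, Matrix.cons_val, map_ofNat, map_one, map_zero, Finset.sum_range_succ,
    Finset.sum_range_zero, Nat.cast_ofNat, Nat.cast_one, Nat.cast_zero]
  linear_combination ((-5) * t ^ 2 + (-12) * t ^ 3 + (-14) * t ^ 4 + (-10) * t ^ 5 + (-9) * t ^ 6 + (-12) * t ^ 7 + (-15) * t ^ 8 + (-14) * t ^ 9) * p_A + ((-131) + (-69) * t + (-22) * t ^ 2 + (-3) * t ^ 3) * t_pow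

lemma Dlog_unit6 : Multiplicative.toAdd (Dlog hζ (cycUnit hζ 6 (by norm_num))) =
    ofCoeffs dcoef6 := by
  apply Dlog_eq_of
  rw [fst_phi_cycUnit, snd_phi_cycUnit, ofCoeffs_eq]
  simp only [dcoef6, Matrix.cons_val, map_ofNat, map_one, map_zero, Finset.sum_range_succ,
    Finset.sum_range_zero, Nat.cast_ofNat, Nat.cast_one, Nat.cast_zero]
  linear_combination ((-3) + (-11) * t + (-21) * t ^ 2 + (-28) * t ^ 3 + (-31) * t ^ 4 + (-31) * t ^ 5 + (-29) * t ^ 6 + (-26) * t ^ 7 + (-26) * t ^ 8 + (-29) * t ^ 9) * p_A + ((-367) + (-278) * t + (-148) * t ^ 2 + (-48) * t ^ 3 + (-7) * t ^ 4) * t_pow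

/-- The chosen columns. -/
def Jcol : Fin 6 → Fin 10 := ![0, 1, 3, 5, 7, 9]

/-- Projection of `A` onto the chosen coefficients. -/
def projJ : A →+ (Fin 6 → ZMod 13) :=
  (LinearMap.pi fun j : Fin 6 => coeffA (Jcol j)).toAddMonoidHom

lemma projJ_ofCoeffs (c : Fin 10 → ZMod 13) (j : Fin 6) :
    projJ (ofCoeffs c) j = c (Jcol j) := by
  show coeffA (Jcol j) (ofCoeffs c) = _
  exact coeffA_ofCoeffs c (Jcol j)

/-- The homomorphism `L : (𝓞 K)ˣ → F_p^6`. -/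
def Lhom : (𝓞 K)ˣ →* Multiplicative (Fin 6 → ZMod 13) :=
  (AddMonoidHom.toMultiplicative projJ).comp (Dlog hζ)

lemma Lhom_apply (u : (𝓞 K)ˣ) :
    Multiplicative.toAdd (Lhom hζ u) = projJ (Multiplicative.toAdd (Dlog hζ u)) := rfl

lemma Lhom_eq_one_of_congr {u : (𝓞 K)ˣ} (n : ℤ) (h : (13 : 𝓞 K) ∣ (u : 𝓞 K) - n) :
    Lhom hζ u = 1 := by
  unfold Lhom
  rw [MonoidHom.comp_apply, Dlog_eq_one_of_congr hζ n h, map_one]

/-- The test units. -/
def gUnits : Fin 6 → (𝓞 K)ˣ :=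
  ![zetaUnit hζ, cycUnit hζ 2 (by norm_num), cycUnit hζ 3 (by norm_num), cycUnit hζ 4 (by norm_num), cycUnit hζ 5 (by norm_num), cycUnit hζ 6 (by norm_num)]

/-- The matrix of values. -/
def Tmat : Matrix (Fin 6) (Fin 6) (ZMod 13) :=
  !![1, 12, 12, 12, 12, 12; 7, 3, 4, 1, 10, 9; 1, 4, 3, 2, 9, 10; 8, 3, 11, 1, 5, 9; 2, 0, 6, 2, 4, 3; 9, 8, 8, 1, 7, 7]

/-- Its inverse. -/
def Nmat : Matrix (Fin 6) (Fin 6) (ZMod 13) :=
  !![1, 10, 12, 7, 4, 4; 3, 2, 12, 11, 2, 1; 3, 10, 2, 9, 2, 2; 9, 7, 4, 9, 7, 11; 7, 11, 0, 6, 1, 1; 4, 6, 7, 11, 5, 2]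

lemma Tmat_mul_Nmat : Tmat * Nmat = 1 := by decide

lemma valMatrix_gUnits : valMatrix (Lhom hζ) (gUnits hζ) = Tmat := by
  ext i j
  simp only [valMatrix, Matrix.of_apply, Lhom_apply]
  fin_cases i
  · simp only [gUnits, Fin.zero_eta, Fin.mk_one, Fin.reduceFinMk, Fin.isValue, Matrix.cons_val]
    rw [Dlog_unit1, projJ_ofCoeffs]
    fin_cases j <;> rfl
  · simp only [gUnits, Fin.zero_eta, Fin.mk_one, Fin.reduceFinMk, Fin.isValue, Matrix.cons_val]
    rw [Dlog_unit2, projJ_ofCoeffs]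
    fin_cases j <;> rfl
  · simp only [gUnits, Fin.zero_eta, Fin.mk_one, Fin.reduceFinMk, Fin.isValue, Matrix.cons_val]
    rw [Dlog_unit3, projJ_ofCoeffs]
    fin_cases j <;> rfl
  · simp only [gUnits, Fin.zero_eta, Fin.mk_one, Fin.reduceFinMk, Fin.isValue, Matrix.cons_val]
    rw [Dlog_unit4, projJ_ofCoeffs]
    fin_cases j <;> rfl
  · simp only [gUnits, Fin.zero_eta, Fin.mk_one, Fin.reduceFinMk, Fin.isValue, Matrix.cons_val]
    rw [Dlog_unit5, projJ_ofCoeffs]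
    fin_cases j <;> rfl
  · simp only [gUnits, Fin.zero_eta, Fin.mk_one, Fin.reduceFinMk, Fin.isValue, Matrix.cons_val]
    rw [Dlog_unit6, projJ_ofCoeffs]
    fin_cases j <;> rfl

omit [IsCyclotomicExtension {13} ℚ K] in
/-- The unit group is generated by a generator of the torsion and a fundamental system. -/
lemma exists_generators : ∃ s : Option (Fin (Units.rank K)) → (𝓞 K)ˣ,
    ∀ x : (𝓞 K)ˣ, ∃ a : Option (Fin (Units.rank K)) → ℤ, x = ∏ i, s i ^ a i := by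
  obtain ⟨g, hg⟩ := IsCyclic.exists_generator (α := Units.torsion K)
  refine ⟨fun i => Option.elim i (g : (𝓞 K)ˣ) (Units.fundSystem K), fun x => ?_⟩
  obtain ⟨ζe, hζe, -⟩ := Units.exist_unique_eq_mul_prod K x
  obtain ⟨k, hk⟩ := Subgroup.mem_zpowers_iff.1 (hg ζe.1)
  refine ⟨fun i => Option.elim i k ζe.2, ?_⟩
  rw [Fintype.prod_option]
  simp only [Option.elim_none, Option.elim_some]
  rw [hζe, ← hk]
  simp

lemma rank_eq : Units.rank K = 5 := by
  rw [Units.rank, InfinitePlace.card_eq_nrRealPlaces_add_nrComplexPlaces,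
    IsCyclotomicExtension.Rat.nrRealPlaces_eq_zero (n := 13) K (by norm_num),
    IsCyclotomicExtension.Rat.nrComplexPlaces_eq_totient_div_two 13 K]
  have : Nat.totient 13 = 12 := Nat.totient_prime prime_p
  rw [this]

/-- Independence of the test units modulo units congruent to integers. -/
theorem independent_units (n : Fin 6 → ℤ)
    (h : ∃ k : ℤ, (13 : 𝓞 K) ∣ ((∏ i, gUnits hζ i ^ n i : (𝓞 K)ˣ) : 𝓞 K) - (k : 𝓞 K)) :
    ∀ i, (13 : ℤ) ∣ n i := by
  obtain ⟨k, hk⟩ := h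
  intro i
  have h1 : Lhom hζ (∏ i, gUnits hζ i ^ n i) = 1 := Lhom_eq_one_of_congr hζ k hk
  have h2 : Matrix.vecMul (fun i => ((n i : ℤ) : ZMod 13)) Tmat = 0 := by
    rw [← valMatrix_gUnits hζ, ← L_prod_zpow, h1]; rfl
  have h3 : (fun i => ((n i : ℤ) : ZMod 13)) = 0 := by
    have := congrArg (fun v => Matrix.vecMul v Nmat) h2
    simp only [Matrix.vecMul_vecMul, Matrix.zero_vecMul] at this
    rwa [Tmat_mul_Nmat, Matrix.vecMul_one] at this
  exact (ZMod.intCast_zmod_eq_zero_iff_dvd (n i) 13).1 (congrFun h3 i)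

end

end Fermat.Agent.S11.KD.P13

namespace Fermat.Agent.S11.KD

open NumberField

/-- **Kummer's lemma for `p = 13`**: a unit of `ℤ[ζ_13]` congruent to a rational integer
modulo `13` is a `13`-th power. -/
theorem kummer_lemma_thirteen_dlog {K : Type*} [Field K] [NumberField K]
    [IsCyclotomicExtension {13} ℚ K]
    (u : (𝓞 K)ˣ) (h : ∃ n : ℤ, (13 : 𝓞 K) ∣ (u : 𝓞 K) - n) : ∃ v : (𝓞 K)ˣ, u = v ^ 13 := by
  have hζ := IsCyclotomicExtension.zeta_spec 13 ℚ K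
  obtain ⟨n, hn⟩ := h
  obtain ⟨s, hs⟩ := P13.exists_generators (K := K)
  have e : Option (Fin (Units.rank K)) ≃ Fin 6 :=
    Fintype.equivFinOfCardEq (by rw [Fintype.card_option, Fintype.card_fin, P13.rank_eq])
  exact exists_pow_eq_of_L_eq_one e s hs (P13.Lhom hζ) (P13.gUnits hζ) P13.Nmat
    (by rw [P13.valMatrix_gUnits, P13.Tmat_mul_Nmat]) u (P13.Lhom_eq_one_of_congr hζ n hn)

/-- Independent units for `p = 13`, in the form used by the counting lemma. -/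
theorem exists_independent_units_thirteen_dlog (K : Type*) [Field K] [NumberField K]
    [IsCyclotomicExtension {13} ℚ K] :
    ∃ c : Fin 6 → (𝓞 K)ˣ, ∀ n : Fin 6 → ℤ,
      (∃ m : ℤ, (13 : 𝓞 K) ∣ ((∏ i, c i ^ n i : (𝓞 K)ˣ) : 𝓞 K) - (m : 𝓞 K)) →
        ∀ i, (13 : ℤ) ∣ n i :=
  ⟨P13.gUnits (IsCyclotomicExtension.zeta_spec 13 ℚ K),
    fun n h => P13.independent_units _ n h⟩

end Fermat.Agent.S11.KD
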