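import Fermat.Agent.S11.KD.Values

/-!
# Kummer's lemma for `p = 11`

Every unit of `ℤ[ζ₁₁]` congruent to a rational integer modulo `11` is an `11`-th power.
-/

set_option autoImplicit false

namespace Fermat.Agent.S11.KD

open Polynomial NumberField

noncomputable section

/-- The chosen columns. -/
def Jcol : Fin 5 → Fin 8 := ![0, 1, 3, 6, 7]

/-- Projection of `A8` onto the five chosen coefficients. -/
def projJ : A8 →+ (Fin 5 → ZMod 11) :=
  (LinearMap.pi fun j : Fin 5 => coeffA (Jcol j)).toAddMonoidHom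

lemma projJ_ofCoeffs (c : Fin 8 → ZMod 11) (j : Fin 5) : projJ (ofCoeffs c) j = c (Jcol j) := by
  show coeffA (Jcol j) (ofCoeffs c) = _
  exact coeffA_ofCoeffs c (Jcol j)

variable {K : Type*} [Field K] [NumberField K] [IsCyclotomicExtension {11} ℚ K]
  {ζ : K} (hζ : IsPrimitiveRoot ζ 11)

/-- The homomorphism `L : (𝓞 K)ˣ → F₁₁^5`. -/
def Lhom : (𝓞 K)ˣ →* Multiplicative (Fin 5 → ZMod 11) :=
  (AddMonoidHom.toMultiplicative projJ).comp (Dlog hζ)

lemma Lhom_apply (u : (𝓞 K)ˣ) :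
    Multiplicative.toAdd (Lhom hζ u) = projJ (Multiplicative.toAdd (Dlog hζ u)) := rfl

lemma Lhom_eq_one_of_congr {u : (𝓞 K)ˣ} (n : ℤ) (h : (11 : 𝓞 K) ∣ (u : 𝓞 K) - n) :
    Lhom hζ u = 1 := by
  unfold Lhom
  rw [MonoidHom.comp_apply, Dlog_eq_one_of_congr hζ n h, map_one]

/-- The five test units. -/
def gUnits : Fin 5 → (𝓞 K)ˣ :=
  ![zetaUnit hζ, cycUnit hζ 2 (by norm_num), cycUnit hζ 3 (by norm_num),
    cycUnit hζ 4 (by norm_num), cycUnit hζ 5 (by norm_num)]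

/-- The matrix of values. -/
def Tmat : Matrix (Fin 5) (Fin 5) (ZMod 11) :=
  !![1, 10, 10, 1, 10; 6, 8, 2, 8, 7; 1, 7, 5, 2, 3; 7, 8, 8, 4, 0; 2, 0, 3, 5, 6]

/-- Its inverse. -/
def Nmat : Matrix (Fin 5) (Fin 5) (ZMod 11) :=
  !![9, 1, 8, 0, 0; 1, 6, 3, 4, 10; 9, 9, 8, 3, 9; 0, 4, 8, 0, 6; 9, 1, 5, 4, 9]

lemma Tmat_mul_Nmat : Tmat * Nmat = 1 := by decide

lemma valMatrix_gUnits : valMatrix (Lhom hζ) (gUnits hζ) = Tmat := by
  ext i j
  simp only [valMatrix, Matrix.of_apply, Lhom_apply]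
  fin_cases i
  · simp only [gUnits, Fin.zero_eta, Fin.isValue, Matrix.cons_val_zero]
    rw [Dlog_zetaUnit, projJ_ofCoeffs]
    fin_cases j <;> rfl
  · simp only [gUnits, Fin.mk_one, Fin.isValue, Matrix.cons_val_one, Matrix.cons_val_zero]
    rw [Dlog_cycUnit_two, projJ_ofCoeffs]
    fin_cases j <;> rfl
  · simp only [gUnits, Fin.reduceFinMk, Fin.isValue, Matrix.cons_val]
    rw [Dlog_cycUnit_three, projJ_ofCoeffs]
    fin_cases j <;> rfl
  · simp only [gUnits, Fin.reduceFinMk, Fin.isValue, Matrix.cons_val]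
    rw [Dlog_cycUnit_four, projJ_ofCoeffs]
    fin_cases j <;> rfl
  · simp only [gUnits, Fin.reduceFinMk, Fin.isValue, Matrix.cons_val]
    rw [Dlog_cycUnit_five, projJ_ofCoeffs]
    fin_cases j <;> rfl

omit [IsCyclotomicExtension {11} ℚ K] in
/-- The unit group is generated by a generator of the torsion and a fundamental system. -/
lemma exists_generators : ∃ s : Option (Fin (Units.rank K)) → (𝓞 K)ˣ,
    ∀ x : (𝓞 K)ˣ, ∃ a : Option (Fin (Units.rank K)) → ℤ, x = ∏ i, s i ^ a i := by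
  obtain ⟨t, ht⟩ := IsCyclic.exists_generator (α := Units.torsion K)
  refine ⟨fun i => Option.elim i (t : (𝓞 K)ˣ) (Units.fundSystem K), fun x => ?_⟩
  obtain ⟨ζe, hζe, -⟩ := Units.exist_unique_eq_mul_prod K x
  obtain ⟨k, hk⟩ := Subgroup.mem_zpowers_iff.1 (ht ζe.1)
  refine ⟨fun i => Option.elim i k ζe.2, ?_⟩
  rw [Fintype.prod_option]
  simp only [Option.elim_none, Option.elim_some]
  rw [hζe, ← hk]
  simp

lemma rank_eq_four : Units.rank K = 4 := by
  rw [Units.rank, InfinitePlace.card_eq_nrRealPlaces_add_nrComplexPlaces,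
    IsCyclotomicExtension.Rat.nrRealPlaces_eq_zero (n := 11) K (by norm_num),
    IsCyclotomicExtension.Rat.nrComplexPlaces_eq_totient_div_two 11 K]
  have : Nat.totient 11 = 10 := Nat.totient_prime (by norm_num)
  rw [this]

end

/-- **Kummer's lemma for `p = 11`**: a unit of `ℤ[ζ₁₁]` congruent to a rational integer
modulo `11` is an `11`-th power. -/
theorem kummer_lemma_eleven {K : Type*} [Field K] [NumberField K]
    [IsCyclotomicExtension {11} ℚ K]
    (u : (𝓞 K)ˣ) (h : ∃ n : ℤ, (11 : 𝓞 K) ∣ (u : 𝓞 K) - n) : ∃ v : (𝓞 K)ˣ, u = v ^ 11 := by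
  have hζ := IsCyclotomicExtension.zeta_spec 11 ℚ K
  obtain ⟨n, hn⟩ := h
  obtain ⟨s, hs⟩ := exists_generators (K := K)
  have e : Option (Fin (Units.rank K)) ≃ Fin 5 :=
    Fintype.equivFinOfCardEq (by rw [Fintype.card_option, Fintype.card_fin, rank_eq_four])
  exact exists_pow_eq_of_L_eq_one e s hs (Lhom hζ) (gUnits hζ) Nmat
    (by rw [valMatrix_gUnits, Tmat_mul_Nmat]) u (Lhom_eq_one_of_congr hζ n hn)

end Fermat.Agent.S11.KD
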