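import Fermat.Agent.S11.KD.Ring

/-!
# The ring homomorphism `𝓞 K → DualNumber (F₁₁[t]/(t^8))`, `ζ ↦ 1 + t + ε`
-/

set_option autoImplicit false

namespace Fermat.Agent.S11.KD

open Polynomial NumberField

noncomputable section

/-- The element `t + ε` of the dual numbers. -/
def sB : B8 := TrivSqZeroExt.inl t8 + DualNumber.eps

lemma fst_sB : TrivSqZeroExt.fst sB = t8 := by simp [sB]

lemma snd_sB : TrivSqZeroExt.snd sB = 1 := by simp [sB]

lemma fst_one_add_sB_pow (i : ℕ) : TrivSqZeroExt.fst ((1 + sB) ^ i) = (1 + t8) ^ i := by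
  simp [TrivSqZeroExt.fst_pow, fst_sB]

lemma snd_one_add_sB_pow (i : ℕ) :
    TrivSqZeroExt.snd ((1 + sB) ^ i) = (i : A8) * (1 + t8) ^ (i - 1) := by
  rw [TrivSqZeroExt.snd_pow]
  simp [fst_sB, snd_sB, Nat.pred_eq_sub_one]

lemma eleven_B8 : (11 : B8) = 0 := by
  have h : (11 : B8) = algebraMap A8 B8 11 := (map_ofNat _ 11).symm
  rw [h, eleven_A8, map_zero]

lemma sB_pow_ten : sB ^ 10 = 0 := by
  ext
  · rw [TrivSqZeroExt.fst_pow, fst_sB]
    have : t8 ^ 10 = t8 ^ 8 * t8 ^ 2 := by ring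
    rw [this, t8_pow_eight, zero_mul]; rfl
  · rw [TrivSqZeroExt.snd_pow, fst_sB, snd_sB]
    have : t8 ^ (Nat.pred 10) = t8 ^ 8 * t8 := by
      show t8 ^ 9 = _
      ring
    rw [this, t8_pow_eight]
    simp

lemma geom_sum_one_add_sB : ∑ i ∈ Finset.range 11, (1 + sB) ^ i = 0 := by
  simp only [Finset.sum_range_succ, Finset.sum_range_zero]
  linear_combination (1 + 5 * sB + 15 * sB ^ 2 + 30 * sB ^ 3 + 42 * sB ^ 4 + 42 * sB ^ 5 +
    30 * sB ^ 6 + 15 * sB ^ 7 + 5 * sB ^ 8 + 1 * sB ^ 9) * eleven_B8 + sB_pow_ten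

variable {K : Type*} [Field K] [NumberField K] [IsCyclotomicExtension {11} ℚ K]
  {ζ : K} (hζ : IsPrimitiveRoot ζ 11)

lemma minpoly_toInteger : minpoly ℤ hζ.toInteger = ∑ i ∈ Finset.range 11, X ^ i := by
  have h : ((hζ.toInteger : 𝓞 K) : K) = ζ := hζ.coe_toInteger
  rw [← RingOfIntegers.minpoly_coe, h, ← cyclotomic_eq_minpoly hζ (by norm_num),
    cyclotomic_prime ℤ 11]

lemma aeval_minpoly_gen :
    aeval (1 + sB) (minpoly ℤ hζ.integralPowerBasis.gen) = 0 := by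
  rw [hζ.integralPowerBasis_gen, minpoly_toInteger hζ]
  simp only [map_sum, map_pow, aeval_X]
  exact geom_sum_one_add_sB

/-- The ring homomorphism `𝓞 K → DualNumber (F₁₁[t]/(t^8))`, `ζ ↦ 1 + t + ε`. -/
def phi : 𝓞 K →ₐ[ℤ] B8 :=
  hζ.integralPowerBasis.lift (1 + sB) (aeval_minpoly_gen hζ)

lemma phi_zeta : phi hζ hζ.toInteger = 1 + sB := by
  have h := hζ.integralPowerBasis.lift_gen (1 + sB) (aeval_minpoly_gen hζ)
  have h2 : hζ.integralPowerBasis.gen = hζ.toInteger := hζ.integralPowerBasis_gen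
  unfold phi
  rw [← h2]
  exact h

/-- The logarithmic derivative homomorphism on the units of `𝓞 K`. -/
def Dlog : (𝓞 K)ˣ →* Multiplicative A8 :=
  (dlog A8).comp (Units.map ((phi hζ : 𝓞 K →+* B8) : 𝓞 K →* B8))

lemma Dlog_eq_of {u : (𝓞 K)ˣ} (d : A8)
    (h : TrivSqZeroExt.snd (phi hζ (u : 𝓞 K)) = d * TrivSqZeroExt.fst (phi hζ (u : 𝓞 K))) :
    Multiplicative.toAdd (Dlog hζ u) = d :=
  dlog_eq_of_snd_eq _ d h

/-- `Dlog` kills units congruent to a rational integer modulo `11`. -/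
lemma Dlog_eq_one_of_congr {u : (𝓞 K)ˣ} (n : ℤ) (h : (11 : 𝓞 K) ∣ (u : 𝓞 K) - n) :
    Dlog hζ u = 1 := by
  obtain ⟨β, hβ⟩ := h
  have hu : (u : 𝓞 K) = n + 11 * β := by rw [← hβ]; ring
  apply dlog_eq_one_of_snd_eq_zero
  show TrivSqZeroExt.snd (phi hζ (u : 𝓞 K)) = 0
  rw [hu, map_add, map_mul, map_intCast, map_ofNat, eleven_B8, zero_mul, add_zero,
    TrivSqZeroExt.snd_intCast]

end

end Fermat.Agent.S11.KD
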