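import Mathlib

/-!
# The truncated polynomial ring `F₁₁[t]/(t^8)`, its dual numbers, and the logarithmic derivative
-/

set_option autoImplicit false

namespace Fermat.Agent.S11.KD

open Polynomial

noncomputable section

/-- The ring `F₁₁[t]/(t^8)`. -/
abbrev A8 : Type := AdjoinRoot ((X : (ZMod 11)[X]) ^ 8)

/-- The class of `t`. -/
def t8 : A8 := AdjoinRoot.root _

lemma t8_pow_eight : t8 ^ 8 = 0 := by
  have := AdjoinRoot.eval₂_root ((X : (ZMod 11)[X]) ^ 8)
  simpa [t8] using this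

instance fact_prime_eleven : Fact (Nat.Prime 11) := ⟨by norm_num⟩

lemma eleven_A8 : (11 : A8) = 0 := by
  have h : algebraMap (ZMod 11) A8 (11 : ZMod 11) = 0 := by
    have : (11 : ZMod 11) = 0 := by decide
    rw [this, map_zero]
  rwa [map_ofNat] at h

/-- The `j`-th coefficient functional on `F₁₁[t]/(t^8)`. -/
def coeffA (j : ℕ) : A8 →ₗ[ZMod 11] ZMod 11 :=
  (Polynomial.lcoeff (ZMod 11) j).comp (AdjoinRoot.modByMonicHom (monic_X_pow 8))

lemma coeffA_t8_pow (j i : ℕ) (hi : i < 8) :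
    coeffA j (t8 ^ i) = if j = i then 1 else 0 := by
  have h1 : t8 ^ i = AdjoinRoot.mk ((X : (ZMod 11)[X]) ^ 8) (X ^ i) := by
    simp [t8]
  rw [h1, coeffA, LinearMap.comp_apply, AdjoinRoot.modByMonicHom_mk]
  have h2 : ((X : (ZMod 11)[X]) ^ i) %ₘ (X ^ 8) = X ^ i := by
    rw [modByMonic_eq_self_iff (monic_X_pow 8)]
    rw [degree_X_pow, degree_X_pow]
    exact_mod_cast hi
  rw [h2, lcoeff_apply, coeff_X_pow]

/-- The dual numbers over `A8`. -/
abbrev B8 : Type := DualNumber A8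

/-- The logarithmic derivative `a + b ε ↦ b / a` on the units of the dual numbers. -/
def dlog (A : Type*) [CommRing A] : (DualNumber A)ˣ →* Multiplicative A where
  toFun u := Multiplicative.ofAdd
    (TrivSqZeroExt.snd (u : DualNumber A) *
      TrivSqZeroExt.fst ((u⁻¹ : (DualNumber A)ˣ) : DualNumber A))
  map_one' := by simp
  map_mul' u v := by
    have hu : TrivSqZeroExt.fst (u : DualNumber A) *
        TrivSqZeroExt.fst ((u⁻¹ : (DualNumber A)ˣ) : DualNumber A) = 1 := by
      rw [← TrivSqZeroExt.fst_mul, Units.mul_inv, TrivSqZeroExt.fst_one]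
    have hv : TrivSqZeroExt.fst (v : DualNumber A) *
        TrivSqZeroExt.fst ((v⁻¹ : (DualNumber A)ˣ) : DualNumber A) = 1 := by
      rw [← TrivSqZeroExt.fst_mul, Units.mul_inv, TrivSqZeroExt.fst_one]
    have huv : ((u * v)⁻¹ : (DualNumber A)ˣ) = u⁻¹ * v⁻¹ := mul_inv u v
    rw [← ofAdd_add, huv]
    congr 1
    simp only [Units.val_mul, TrivSqZeroExt.snd_mul, TrivSqZeroExt.fst_mul,
      smul_eq_mul, MulOpposite.smul_eq_mul_unop, MulOpposite.unop_op]
    linear_combination
      (TrivSqZeroExt.snd (v : DualNumber A) *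
        TrivSqZeroExt.fst ((v⁻¹ : (DualNumber A)ˣ) : DualNumber A)) * hu +
      (TrivSqZeroExt.snd (u : DualNumber A) *
        TrivSqZeroExt.fst ((u⁻¹ : (DualNumber A)ˣ) : DualNumber A)) * hv

lemma dlog_apply (A : Type*) [CommRing A] (u : (DualNumber A)ˣ) :
    Multiplicative.toAdd (dlog A u) = TrivSqZeroExt.snd (u : DualNumber A) *
      TrivSqZeroExt.fst ((u⁻¹ : (DualNumber A)ˣ) : DualNumber A) := rfl

/-- If `snd u = d * fst u` then `dlog u = d`. -/
lemma dlog_eq_of_snd_eq {A : Type*} [CommRing A] (u : (DualNumber A)ˣ) (d : A)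
    (h : TrivSqZeroExt.snd (u : DualNumber A) = d * TrivSqZeroExt.fst (u : DualNumber A)) :
    Multiplicative.toAdd (dlog A u) = d := by
  have hu : TrivSqZeroExt.fst (u : DualNumber A) *
      TrivSqZeroExt.fst ((u⁻¹ : (DualNumber A)ˣ) : DualNumber A) = 1 := by
    rw [← TrivSqZeroExt.fst_mul, Units.mul_inv, TrivSqZeroExt.fst_one]
  rw [dlog_apply, h, mul_assoc, hu, mul_one]

/-- If `snd u = 0` then `dlog u = 0`. -/
lemma dlog_eq_one_of_snd_eq_zero {A : Type*} [CommRing A] (u : (DualNumber A)ˣ)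
    (h : TrivSqZeroExt.snd (u : DualNumber A) = 0) : dlog A u = 1 := by
  have := dlog_eq_of_snd_eq u 0 (by rw [h, zero_mul])
  exact Multiplicative.toAdd.injective (by rw [this]; rfl)

end

end Fermat.Agent.S11.KD
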