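import Fermat.Agent.S11.KD.Phi
import Fermat.Agent.S11.KD.Abstract

/-!
# Values of the logarithmic derivative on `ζ` and on the cyclotomic units
-/

set_option autoImplicit false

namespace Fermat.Agent.S11.KD

open Polynomial NumberField

noncomputable section

/-- An element of `A8` given by its list of coefficients. -/
def ofCoeffs (c : Fin 8 → ZMod 11) : A8 := ∑ m : Fin 8, c m • t8 ^ (m : ℕ)

lemma coeffA_ofCoeffs (c : Fin 8 → ZMod 11) (j : Fin 8) : coeffA j (ofCoeffs c) = c j := by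
  unfold ofCoeffs
  rw [map_sum]
  simp only [map_smul, smul_eq_mul]
  rw [Finset.sum_eq_single j]
  · rw [coeffA_t8_pow _ _ j.isLt, if_pos rfl, mul_one]
  · intro m _ hm
    rw [coeffA_t8_pow _ _ m.isLt, if_neg, mul_zero]
    exact fun h => hm (Fin.ext h.symm)
  · intro h; exact absurd (Finset.mem_univ j) h

lemma ofCoeffs_eq (c : Fin 8 → ZMod 11) :
    ofCoeffs c = algebraMap (ZMod 11) A8 (c 0) + algebraMap (ZMod 11) A8 (c 1) * t8 +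
      algebraMap (ZMod 11) A8 (c 2) * t8 ^ 2 + algebraMap (ZMod 11) A8 (c 3) * t8 ^ 3 +
      algebraMap (ZMod 11) A8 (c 4) * t8 ^ 4 + algebraMap (ZMod 11) A8 (c 5) * t8 ^ 5 +
      algebraMap (ZMod 11) A8 (c 6) * t8 ^ 6 + algebraMap (ZMod 11) A8 (c 7) * t8 ^ 7 := by
  unfold ofCoeffs
  simp [Fin.sum_univ_eight, Algebra.smul_def]

variable {K : Type*} [Field K] [NumberField K] [IsCyclotomicExtension {11} ℚ K]
  {ζ : K} (hζ : IsPrimitiveRoot ζ 11)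

/-- `ζ` as a unit. -/
def zetaUnit : (𝓞 K)ˣ := (hζ.toInteger_isPrimitiveRoot.isUnit (by norm_num)).unit

lemma coe_zetaUnit : ((zetaUnit hζ : (𝓞 K)ˣ) : 𝓞 K) = hζ.toInteger := rfl

/-- The cyclotomic unit `1 + ζ + ⋯ + ζ^(k-1)`. -/
def cycUnit (k : ℕ) (hk : k.Coprime 11) : (𝓞 K)ˣ :=
  (hζ.toInteger_isPrimitiveRoot.geom_sum_isUnit (by norm_num) hk).unit

lemma coe_cycUnit (k : ℕ) (hk : k.Coprime 11) :
    ((cycUnit hζ k hk : (𝓞 K)ˣ) : 𝓞 K) = ∑ i ∈ Finset.range k, hζ.toInteger ^ i := rfl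

lemma phi_cycUnit (k : ℕ) (hk : k.Coprime 11) :
    phi hζ ((cycUnit hζ k hk : (𝓞 K)ˣ) : 𝓞 K) = ∑ i ∈ Finset.range k, (1 + sB) ^ i := by
  rw [coe_cycUnit, map_sum]
  simp only [map_pow, phi_zeta]

lemma fst_phi_cycUnit (k : ℕ) (hk : k.Coprime 11) :
    TrivSqZeroExt.fst (phi hζ ((cycUnit hζ k hk : (𝓞 K)ˣ) : 𝓞 K)) =
      ∑ i ∈ Finset.range k, (1 + t8) ^ i := by
  rw [phi_cycUnit, TrivSqZeroExt.fst_sum]
  simp only [fst_one_add_sB_pow]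

lemma snd_phi_cycUnit (k : ℕ) (hk : k.Coprime 11) :
    TrivSqZeroExt.snd (phi hζ ((cycUnit hζ k hk : (𝓞 K)ˣ) : 𝓞 K)) =
      ∑ i ∈ Finset.range k, (i : A8) * (1 + t8) ^ (i - 1) := by
  rw [phi_cycUnit, TrivSqZeroExt.snd_sum]
  simp only [snd_one_add_sB_pow]

/-- Coefficients of `dlog ζ`. -/
def dz : Fin 8 → ZMod 11 := ![1, 10, 1, 10, 1, 10, 1, 10]
/-- Coefficients of `dlog (1 + ζ)`. -/
def d2 : Fin 8 → ZMod 11 := ![6, 8, 7, 2, 10, 6, 8, 7]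
/-- Coefficients of `dlog (1 + ζ + ζ^2)`. -/
def d3 : Fin 8 → ZMod 11 := ![1, 7, 0, 5, 6, 7, 2, 3]
/-- Coefficients of `dlog (1 + ζ + ζ^2 + ζ^3)`. -/
def d4 : Fin 8 → ZMod 11 := ![7, 8, 1, 8, 7, 6, 4, 0]
/-- Coefficients of `dlog (1 + ζ + ζ^2 + ζ^3 + ζ^4)`. -/
def d5 : Fin 8 → ZMod 11 := ![2, 0, 10, 3, 0, 6, 5, 6]

lemma Dlog_zetaUnit : Multiplicative.toAdd (Dlog hζ (zetaUnit hζ)) = ofCoeffs dz := by
  apply Dlog_eq_of
  rw [coe_zetaUnit, phi_zeta]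
  have h1 : TrivSqZeroExt.fst (1 + sB) = 1 + t8 := by simp [fst_sB]
  have h2 : TrivSqZeroExt.snd (1 + sB) = 1 := by simp [snd_sB]
  rw [h1, h2, ofCoeffs_eq]
  simp only [dz, Matrix.cons_val, map_ofNat, map_one]
  linear_combination (-1 * t8 - 1 * t8 ^ 2 - 1 * t8 ^ 3 - 1 * t8 ^ 4 - 1 * t8 ^ 5 - 1 * t8 ^ 6
    - 1 * t8 ^ 7) * eleven_A8 + (-10) * t8_pow_eight

lemma Dlog_cycUnit_two : Multiplicative.toAdd (Dlog hζ (cycUnit hζ 2 (by norm_num))) =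
    ofCoeffs d2 := by
  apply Dlog_eq_of
  rw [fst_phi_cycUnit, snd_phi_cycUnit, ofCoeffs_eq]
  simp only [d2, Matrix.cons_val, map_ofNat, map_one, Finset.sum_range_succ,
    Finset.sum_range_zero, Nat.cast_ofNat, Nat.cast_one, Nat.cast_zero]
  linear_combination (-1 - 2 * t8 - 2 * t8 ^ 2 - 1 * t8 ^ 3 - 2 * t8 ^ 4 - 2 * t8 ^ 5
    - 2 * t8 ^ 6 - 2 * t8 ^ 7) * eleven_A8 + (-7) * t8_pow_eight

lemma Dlog_cycUnit_three : Multiplicative.toAdd (Dlog hζ (cycUnit hζ 3 (by norm_num))) =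
    ofCoeffs d3 := by
  apply Dlog_eq_of
  rw [fst_phi_cycUnit, snd_phi_cycUnit, ofCoeffs_eq]
  simp only [d3, Matrix.cons_val, map_ofNat, map_one, map_zero, Finset.sum_range_succ,
    Finset.sum_range_zero, Nat.cast_ofNat, Nat.cast_one, Nat.cast_zero]
  linear_combination (-2 * t8 - 2 * t8 ^ 2 - 2 * t8 ^ 3 - 3 * t8 ^ 4 - 4 * t8 ^ 5 - 3 * t8 ^ 6
    - 2 * t8 ^ 7) * eleven_A8 + (-11 - 3 * t8) * t8_pow_eight

lemma Dlog_cycUnit_four : Multiplicative.toAdd (Dlog hζ (cycUnit hζ 4 (by norm_num))) =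
    ofCoeffs d4 := by
  apply Dlog_eq_of
  rw [fst_phi_cycUnit, snd_phi_cycUnit, ofCoeffs_eq]
  simp only [d4, Matrix.cons_val, map_ofNat, map_one, map_zero, Finset.sum_range_succ,
    Finset.sum_range_zero, Nat.cast_ofNat, Nat.cast_one, Nat.cast_zero]
  linear_combination (-2 - 6 * t8 - 7 * t8 ^ 2 - 7 * t8 ^ 3 - 8 * t8 ^ 4 - 9 * t8 ^ 5
    - 8 * t8 ^ 6 - 5 * t8 ^ 7) * eleven_A8 + (-22 - 4 * t8) * t8_pow_eight

lemma Dlog_cycUnit_five : Multiplicative.toAdd (Dlog hζ (cycUnit hζ 5 (by norm_num))) =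
    ofCoeffs d5 := by
  apply Dlog_eq_of
  rw [fst_phi_cycUnit, snd_phi_cycUnit, ofCoeffs_eq]
  simp only [d5, Matrix.cons_val, map_ofNat, map_one, map_zero, Finset.sum_range_succ,
    Finset.sum_range_zero, Nat.cast_ofNat, Nat.cast_one, Nat.cast_zero]
  linear_combination (-5 * t8 ^ 2 - 11 * t8 ^ 3 - 12 * t8 ^ 4 - 10 * t8 ^ 5 - 10 * t8 ^ 6
    - 13 * t8 ^ 7) * eleven_A8 + (-140 - 91 * t8 - 35 * t8 ^ 2 - 6 * t8 ^ 3) * t8_pow_eight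

end

end Fermat.Agent.S11.KD
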